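/-
S41 block H1 (owner helper101): from a normalised eigenform `f` of level `N` and a maximal ideal
`𝔪 ∋ p` of `ℤ̄` to a nonzero class `x₀ ∈ Hom_{par,ell}(Γ₀(N), ℤ/p)` killed by the maximal ideal of
the Hecke algebra cut out by `(f, 𝔪)`.

* `exists_ne_zero_killed` : `x₀ ≠ 0` with `t x₀ = 0` for all `t ∈ 𝕋` with `χ_f(t) ∈ 𝔪`;
* `exists_lam_killed` : the same with a lift `x ∈ Lam N`, `x ∉ p Lam N`;
* `exists_eigenclass_lam` : the shape used by S41.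
-/
import Fermat.Agent.Lib.HeckeHom.Faithful
import Fermat.Agent.S29.Eigen
import Fermat.Agent.S29.Socle
import Fermat.Prelude.Def_FLTPrelim_ModularRep

set_option autoImplicit false

open CongruenceSubgroup CuspForm
open scoped MatrixGroups

namespace Fermat.Agent.S41.H1

open Fermat.Agent.Lib.HeckeHom Fermat.Agent.S29.Eigen
open Fermat.Agent.S16.Lift (castTo castTo_apply homPE mem_homPE)

local notation "Zbar" => integralClosure ℤ ℂ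

theorem finite_homPE (N : ℕ) [NeZero N] (n : ℕ) (hn : 0 < n) : Finite (homPE N (ZMod n)) := by
  apply Nat.finite_of_card_ne_zero
  rw [Fermat.Agent.S16.Lift.card_homPE N n hn]
  exact pow_ne_zero _ hn.ne'

/-- A nonzero class mod `p` killed by the maximal ideal of the Hecke algebra attached to
`(f, 𝔪)`. -/
theorem exists_ne_zero_killed {p N : ℕ} [NeZero N] (hp : p.Prime) (S : Set ℕ)
    {f : CuspForm (Gamma0 N) 2} (hf : f.IsNormalizedEigenform) (𝔪 : Ideal Zbar)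
    (hmax : 𝔪.IsMaximal) (hpm : (p : Zbar) ∈ 𝔪) :
    ∃ x₀ : homPE N (ZMod p), x₀ ≠ 0 ∧
      ∀ t : heckeAlgebra N 2 S, eigenCharZ hf S t ∈ 𝔪 → actMod N S p t x₀ = 0 := by
  have hic : IsIntegrallyClosed Zbar := IsIntegrallyClosed.of_isIntegrallyClosedIn Zbar ℂ
  have hfin : Finite (homPE N (ZMod p)) := finite_homPE N p hp.pos
  let _ : Module (heckeAlgebra N 2 S) (homPE N (ZMod p)) := Module.compHom _ (actMod N S p)
  have hsmul : ∀ (t : heckeAlgebra N 2 S) (x : homPE N (ZMod p)), t • x = actMod N S p t x :=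
    fun _ _ => rfl
  let I : Ideal (heckeAlgebra N 2 S) := 𝔪.comap (eigenCharZ hf S)
  have hI : I ≠ ⊤ := by
    have : I.IsPrime := Ideal.comap_isPrime _ _
    exact this.ne_top
  obtain ⟨y, hy, h⟩ := Fermat.Agent.S29.Socle.exists_ne_zero_killed
    (M := homPE N (ZMod p)) I hI (by
      intro t ht
      have h0 : actMod N S p t = 0 := LinearMap.ext fun x => by
        rw [← hsmul, ht, LinearMap.zero_apply]
      obtain ⟨c, hc⟩ := natCast_dvd_of_actMod_eq_zero N S p hp.pos t h0 (eigenCharZ hf S)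
      show eigenCharZ hf S t ∈ 𝔪
      rw [hc]
      exact 𝔪.mul_mem_right _ hpm)
  exact ⟨y, hy, fun t ht => h t ht⟩

/-- Lattice form of `exists_ne_zero_killed`. -/
theorem exists_lam_killed {p N : ℕ} [NeZero N] (hp : p.Prime) (S : Set ℕ)
    {f : CuspForm (Gamma0 N) 2} (hf : f.IsNormalizedEigenform) (𝔪 : Ideal Zbar)
    (hmax : 𝔪.IsMaximal) (hpm : (p : Zbar) ∈ 𝔪) :
    ∃ x : Lam N, (¬ ∃ y : Lam N, x = p • y) ∧
      ∀ t : heckeAlgebra N 2 S, eigenCharZ hf S t ∈ 𝔪 → ∃ y : Lam N, latHom N S t x = p • y := by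
  obtain ⟨x₀, hx₀, h⟩ := exists_ne_zero_killed hp S hf 𝔪 hmax hpm
  obtain ⟨x, rfl⟩ := redHom_surjective N p x₀
  refine ⟨x, fun hy => hx₀ ((redHom_eq_zero_iff N p x).2 hy), fun t ht => ?_⟩
  rw [← redHom_eq_zero_iff, ← actMod_redHom]
  exact h t ht

/-- **Block H1 of S41**, lattice form.  `a ℓ` are the target eigenvalues at the primes `ℓ ∤ N`
satisfying `P ℓ`; at `q` the square of the eigenvalue is congruent to `(q + 1) ^ 2`. -/
theorem exists_eigenclass_lam {p N q : ℕ} [NeZero N] (hp : p.Prime) (hq : q.Prime) (hqN : ¬ q ∣ N)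
    {f : CuspForm (Gamma0 N) 2} (hf : f.IsNormalizedEigenform) (𝔪 : Ideal Zbar)
    (hmax : 𝔪.IsMaximal) (hpm : (p : Zbar) ∈ 𝔪) (a : ℕ → ℤ) (P : ℕ → Prop)
    (hcong : ∀ ℓ : ℕ, ℓ.Prime → ¬ ℓ ∣ N → P ℓ →
      ∃ c : Zbar, (c : ℂ) = ModularFormClass.qCoeff f ℓ ∧ c - ((a ℓ : ℤ) : Zbar) ∈ 𝔪)
    (hLR : ∃ c : Zbar, (c : ℂ) = ModularFormClass.qCoeff f q ∧
      c ^ 2 - ((q : Zbar) + 1) ^ 2 ∈ 𝔪) :
    ∃ (x : Lam N) (ε : ℤ), (¬ ∃ y : Lam N, x = p • y) ∧ (ε = 1 ∨ ε = -1) ∧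
      (∀ (ℓ : ℕ) (hℓ : ℓ.Prime) (hℓN : ¬ ℓ ∣ N), P ℓ →
        ∃ y : Lam N, heckeHomT hℓ hℓN x.1 - a ℓ • x.1 = p • y.1) ∧
      ∃ y : Lam N, heckeHomT hq hqN x.1 - (ε * ((q : ℤ) + 1)) • x.1 = p • y.1 := by
  obtain ⟨x, hx, h⟩ := exists_lam_killed hp ∅ hf 𝔪 hmax hpm
  have hprime : 𝔪.IsPrime := hmax.isPrime
  -- the value of the eigencharacter at `T_ℓ - n`
  have hval : ∀ (ℓ : ℕ) (hℓ : ℓ.Prime) (hℓN : ¬ ℓ ∣ N) (n : ℤ) (c : Zbar),
      (c : ℂ) = ModularFormClass.qCoeff f ℓ →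
      eigenCharZ hf ∅ (heckeAlgebra.T hℓ hℓN (Set.notMem_empty ℓ) - (n : heckeAlgebra N 2 ∅))
        = c - (n : Zbar) := by
    intro ℓ hℓ hℓN n c hc
    rw [map_sub, map_intCast]
    congr 1
    apply Subtype.ext
    rw [coe_eigenCharZ, eigenChar_T, hc]
  have hkey : ∀ (ℓ : ℕ) (hℓ : ℓ.Prime) (hℓN : ¬ ℓ ∣ N) (n : ℤ) (c : Zbar),
      (c : ℂ) = ModularFormClass.qCoeff f ℓ → c - (n : Zbar) ∈ 𝔪 →
      ∃ y : Lam N, heckeHomT hℓ hℓN x.1 - n • x.1 = p • y.1 := by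
    intro ℓ hℓ hℓN n c hc hcm
    obtain ⟨y, hy⟩ := h (heckeAlgebra.T hℓ hℓN (Set.notMem_empty ℓ) - (n : heckeAlgebra N 2 ∅))
      (by rw [hval ℓ hℓ hℓN n c hc]; exact hcm)
    refine ⟨y, ?_⟩
    have := congrArg Subtype.val hy
    rw [map_sub, map_intCast, LinearMap.sub_apply] at this
    rw [← coe_latHom_T N ∅ hℓ hℓN (Set.notMem_empty ℓ) x]
    simpa using this
  obtain ⟨c, hc, hcm⟩ := hLR
  have hfac : (c - (((1 : ℤ) * ((q : ℤ) + 1) : ℤ) : Zbar)) *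
      (c - (((-1 : ℤ) * ((q : ℤ) + 1) : ℤ) : Zbar)) ∈ 𝔪 := by
    have : (c - (((1 : ℤ) * ((q : ℤ) + 1) : ℤ) : Zbar)) *
      (c - (((-1 : ℤ) * ((q : ℤ) + 1) : ℤ) : Zbar)) = c ^ 2 - ((q : Zbar) + 1) ^ 2 := by
      push_cast
      ring
    rw [this]
    exact hcm
  rcases hprime.mem_or_mem hfac with h1 | h1
  · exact ⟨x, 1, hx, Or.inl rfl, fun ℓ hℓ hℓN hP => by
      obtain ⟨c', hc', hcm'⟩ := hcong ℓ hℓ hℓN hP
      exact hkey ℓ hℓ hℓN _ c' hc' hcm', hkey q hq hqN _ c hc h1⟩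
  · exact ⟨x, -1, hx, Or.inr rfl, fun ℓ hℓ hℓN hP => by
      obtain ⟨c', hc', hcm'⟩ := hcong ℓ hℓ hℓN hP
      exact hkey ℓ hℓ hℓN _ c' hc' hcm', hkey q hq hqN _ c hc h1⟩

end Fermat.Agent.S41.H1
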